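/-
S55 (Poitou-Tate), block F2: the linear algebra of the final step.
-/
import Mathlib

set_option autoImplicit false
set_option maxHeartbeats 400000

namespace Fermat.Agent.PT

variable {k : Type*} [Field k] {Φ Y H P : Type*} [AddCommGroup Φ] [Module k Φ]
  [AddCommGroup Y] [Module k Y] [AddCommGroup H] [Module k H]

/-- `Θ : Φ → Y` with image `Ysub` and kernel `inc P`; `α : Φ ≅ H^*` mapping `inc P` onto the
annihilator of `K ≤ H`.  Then `Ysub × K → k`, `(Θ φ, x) ↦ α φ x` is a perfect pairing. -/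
theorem exists_nondegenerate_pairing (K : Submodule k H) (Ysub : Submodule k Y)
    (Θ : Φ →ₗ[k] Y) (hΘmem : ∀ φ, Θ φ ∈ Ysub) (hΘsurj : ∀ y ∈ Ysub, ∃ φ, Θ φ = y)
    (α : Φ →ₗ[k] Module.Dual k H) (hα : Function.Bijective α)
    (inc : P → Φ) (hker : ∀ φ, Θ φ = 0 ↔ ∃ ψ, φ = inc ψ)
    (h1 : ∀ ψ, ∀ x ∈ K, α (inc ψ) x = 0)
    (h2 : ∀ τ : Module.Dual k H, (∀ x ∈ K, τ x = 0) → ∃ ψ, α (inc ψ) = τ) :
    ∃ B : Ysub →ₗ[k] K →ₗ[k] k,
      (∀ y, (∀ x, B y x = 0) → y = 0) ∧ (∀ x, (∀ y, B y x = 0) → x = 0) := by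
  let Θ' : Φ →ₗ[k] Ysub := Θ.codRestrict Ysub hΘmem
  have hΘ' : Function.Surjective Θ' := by
    rintro ⟨y, hy⟩
    obtain ⟨φ, rfl⟩ := hΘsurj y hy
    exact ⟨φ, rfl⟩
  let B₀ : Φ →ₗ[k] K →ₗ[k] k := K.subtype.dualMap ∘ₗ α
  have hB₀ : ∀ φ (x : K), B₀ φ x = α φ x := fun _ _ => rfl
  have hle : LinearMap.ker Θ' ≤ LinearMap.ker B₀ := by
    intro φ hφ
    have h0 : Θ φ = 0 := congrArg Subtype.val (LinearMap.mem_ker.mp hφ)
    obtain ⟨ψ, rfl⟩ := (hker φ).mp h0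
    rw [LinearMap.mem_ker]
    ext x
    rw [hB₀]
    exact h1 ψ x x.2
  let B : Ysub →ₗ[k] K →ₗ[k] k :=
    (Submodule.liftQ (LinearMap.ker Θ') B₀ hle) ∘ₗ (Θ'.quotKerEquivOfSurjective hΘ').symm.toLinearMap
  have hB : ∀ φ, B (Θ' φ) = B₀ φ := by
    intro φ
    have : (Θ'.quotKerEquivOfSurjective hΘ').symm (Θ' φ) = Submodule.Quotient.mk φ := by
      rw [LinearEquiv.symm_apply_eq]
      rfl
    simp only [B, LinearMap.comp_apply, LinearEquiv.coe_coe, this]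
    rfl
  refine ⟨B, ?_, ?_⟩
  · intro y hy
    obtain ⟨φ, rfl⟩ := hΘ' y
    have hv : ∀ x ∈ K, α φ x = 0 := by
      intro x hx
      have := hy ⟨x, hx⟩
      rwa [hB, hB₀] at this
    obtain ⟨ψ, hψ⟩ := h2 (α φ) hv
    have : φ = inc ψ := (hα.1 hψ).symm
    apply Subtype.ext
    exact (hker φ).mpr ⟨ψ, this⟩
  · intro x hx
    apply Subtype.ext
    rw [Submodule.coe_zero, ← Module.forall_dual_apply_eq_zero_iff k]
    intro τ
    obtain ⟨φ, rfl⟩ := hα.2 τ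
    have := hx (Θ' φ)
    rwa [hB, hB₀] at this

end Fermat.Agent.PT
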