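/-
S55 (Poitou-Tate), block F2: existence of the trace `tr : H²_S(W) → F_p` from reciprocity, and the
square relating the global and the local duality maps.
-/
import Fermat.Agent.PT.Duality.Global
import Fermat.Agent.PT.Duality.LES

set_option autoImplicit false
set_option maxHeartbeats 400000

open ExtCitation

noncomputable section

namespace Fermat.Agent.PT

variable {p : ℕ} [Fact p.Prime] {S : Finset Nat.Primes}

/-- `ev_ℓ ∘ φ` for an equivariant `φ : ρ → J`. -/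
def evComp {A : Type*} [AddCommGroup A] [Module (ZMod p) A] {ρ : Representation (ZMod p) GQ A}
    (ℓ : ↥S) (φJ : EHomOn ⊤ ρ (JQ p S)) : EHomOn (⊤ ⊓ Dl ℓ.1) ρ (cycRep p) :=
  ⟨(evQ p S ℓ).1 ∘ₗ φJ.1, EHomOn.comp_mem (evQ p S ℓ).2 (EHomOn.mono le_top φJ.2)⟩

/-- The linear form `y ↦ ∑_ℓ lam ℓ ((ev_ℓ)_* (loc_ℓ y))` on `H²_S(J)`. -/
def lamJ (lam : LocalFunctionals p S) : H2 (LS S) ⊤ (JQ p S) →ₗ[ZMod p] ZMod p :=
  ∑ ℓ : ↥S, lam ℓ ∘ₗ mapH2 Lall (⊤ ⊓ Dl ℓ.1) (JQ p S) (cycRep p) (evQ p S ℓ) ∘ₗ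
    loc2 S ⊤ (JQ p S) (primeLocalPlace ℓ.1)

lemma lamJ_apply (lam : LocalFunctionals p S) (y : H2 (LS S) ⊤ (JQ p S)) :
    lamJ lam y = ∑ ℓ : ↥S, lam ℓ (mapH2 Lall (⊤ ⊓ Dl ℓ.1) (JQ p S) (cycRep p) (evQ p S ℓ)
        (loc2 S ⊤ (JQ p S) (primeLocalPlace ℓ.1) y)) := by
  simp [lamJ, LinearMap.sum_apply]

/-- Naturality: `(ev_ℓ)_* loc_ℓ (φ_* z) = (ev_ℓ ∘ φ)_* loc_ℓ z`. -/
lemma mapH2_evQ_loc2 {A : Type*} [AddCommGroup A] [Module (ZMod p) A]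
    {ρ : Representation (ZMod p) GQ A} (ℓ : ↥S) (φJ : EHomOn ⊤ ρ (JQ p S))
    (z : H2 (LS S) ⊤ ρ) :
    mapH2 Lall (⊤ ⊓ Dl ℓ.1) (JQ p S) (cycRep p) (evQ p S ℓ)
        (loc2 S ⊤ (JQ p S) (primeLocalPlace ℓ.1) (mapH2 (LS S) ⊤ ρ (JQ p S) φJ z)) =
      mapH2 Lall (⊤ ⊓ Dl ℓ.1) ρ (cycRep p) (evComp ℓ φJ)
        (loc2 S ⊤ ρ (primeLocalPlace ℓ.1) z) := by
  obtain ⟨z, rfl⟩ := H2.mk_surjective _ _ _ z
  rfl

/-- The short exact sequence `0 → F_p(1) → J → W → 0`. -/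
theorem sesQ (hpS : pPrime p ∈ S) :
    SES (LS S) (cycRep p) (JQ p S) (WQ p hpS)
      (Jincl (LS S) (DS S) (cycRep p) (isSmoothRep_cycRep hpS))
      (Wpi (LS S) (DS S) (cycRep p) (isSmoothRep_cycRep hpS)) where
  i_equiv := fun g a => Jincl_mem (LS S) (DS S) (cycRep p) (isSmoothRep_cycRep hpS) ⊤ g trivial a
  p_equiv := fun g b => Wpi_mem (LS S) (DS S) (cycRep p) (isSmoothRep_cycRep hpS) ⊤ g trivial b
  inj := by
    intro a b hab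
    have h := congrArg (Jev (LS S) (DS S) (cycRep p) (⟨pPrime p, hpS⟩ : ↥S)) hab
    rwa [Jev_Jincl, Jev_Jincl] at h
  surj := Wpi_surjective _ _ _ _
  exact := by
    rw [LinearMap.exact_iff]
    exact ker_Wpi _ _ _ _
  smooth := isSmoothRep_Jrep _ _ _

/-- Existence of the trace.  `lamJ lam` kills `ker (π_*) = range (incl_*)` (`SES.mapH2_exact`,
`mapH2_evQ_loc2` with `φJ = Jincl`, `ev_ℓ ∘ Jincl = id`, reciprocity), hence factors through `π_*`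
(`LinearMap.range_dualMap_eq_dualAnnihilator_ker`). -/
theorem exists_trace (hpS : pPrime p ∈ S) (lam : LocalFunctionals p S)
    (hrec : ReciprocityStatement lam) :
    ∃ tr : H2 (LS S) ⊤ (WQ p hpS) →ₗ[ZMod p] ZMod p, IsTrace hpS lam tr := by
  have hmem : lamJ lam ∈
      (LinearMap.ker (mapH2 (LS S) ⊤ (JQ p S) (WQ p hpS) (piQ p hpS))).dualAnnihilator := by
    rw [Submodule.mem_dualAnnihilator]
    intro y hy
    have hy' : mapH2 (LS S) ⊤ (JQ p S) (WQ p hpS) ((sesQ hpS).pHom ⊤) y = 0 := hy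
    obtain ⟨x, rfl⟩ := ((sesQ hpS).mapH2_exact ⊤ y).mp hy'
    rw [lamJ_apply, ← hrec x]
    refine Finset.sum_congr rfl fun ℓ _ => ?_
    rw [mapH2_evQ_loc2 ℓ ((sesQ hpS).iHom ⊤) x]
    have hid : evComp ℓ ((sesQ hpS).iHom ⊤) =
        ⟨LinearMap.id, EHomOn.id_mem (⊤ ⊓ Dl ℓ.1) (cycRep p)⟩ := by
      apply Subtype.ext
      apply LinearMap.ext
      intro a
      exact Jev_Jincl (LS S) (DS S) (cycRep p) (isSmoothRep_cycRep hpS) ℓ a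
    rw [hid, mapH2_id]
  rw [← LinearMap.range_dualMap_eq_dualAnnihilator_ker] at hmem
  obtain ⟨tr, htr⟩ := hmem
  refine ⟨tr, fun y => ?_⟩
  rw [← lamJ_apply, ← htr]
  rfl

/-- The square: `alpha (π ∘ φJ) = ∑_ℓ beta_ℓ (ev_ℓ ∘ φJ) ∘ loc_ℓ`. -/
theorem alpha_postcomp_piQ (hpS : pPrime p ∈ S) (lam : LocalFunctionals p S)
    (tr : H2 (LS S) ⊤ (WQ p hpS) →ₗ[ZMod p] ZMod p) (htr : IsTrace hpS lam tr)
    {A : Type*} [AddCommGroup A] [Module (ZMod p) A] (ρ : Representation (ZMod p) GQ A)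
    (φJ : EHomOn ⊤ ρ (JQ p S)) (z : H2 (LS S) ⊤ ρ) :
    alpha (LS S) ⊤ (WQ p hpS) tr ρ (EHomOn.postcomp ρ (piQ p hpS).2 φJ) z =
      ∑ ℓ : ↥S, alpha Lall (⊤ ⊓ Dl ℓ.1) (cycRep p) (lam ℓ) ρ (evComp ℓ φJ)
        (loc2 S ⊤ ρ (primeLocalPlace ℓ.1) z) := by
  rw [alpha_apply]
  have h : mapH2 (LS S) ⊤ ρ (WQ p hpS) (EHomOn.postcomp ρ (piQ p hpS).2 φJ) z =
      mapH2 (LS S) ⊤ (JQ p S) (WQ p hpS) (piQ p hpS) (mapH2 (LS S) ⊤ ρ (JQ p S) φJ z) :=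
    mapH2_comp (LS S) (piQ p hpS) φJ z
  rw [h, htr]
  refine Finset.sum_congr rfl fun ℓ _ => ?_
  rw [mapH2_evQ_loc2, alpha_apply]

end Fermat.Agent.PT

end
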