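/-
S55 (Poitou-Tate), block F2: the final assembly, from the contracts
`BaseStatement`, `ReciprocityStatement`, `LocalDualityStatement` (Duality/Global.lean) and a
connecting map `Θ : Hom_G(M, W) → H¹(G, M')` with the three properties of `Final/ThetaQ.lean`.
-/
import Fermat.Agent.PT.Final.LinAlg
import Fermat.Agent.PT.Final.Trace
import Fermat.Agent.PT.Duality.Abstract
import Fermat.Agent.PT.Duality.ThetaSurj
import Fermat.Agent.PT.Bridge.H2Loc
import Fermat.Agent.PT.B.Galois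

set_option autoImplicit false
set_option maxHeartbeats 400000

open CategoryTheory groupCohomology ExtCitation

noncomputable section

namespace Fermat.Agent.PT

variable {p : ℕ} [Fact p.Prime] {S : Finset Nat.Primes}

/-- A linear form on `H` vanishing on the common kernel of a finite family of linear maps `f i` is
a sum `∑ τ i ∘ f i`. -/
theorem exists_dual_family {k : Type*} [Field k] {H : Type*} [AddCommGroup H] [Module k H]
    {ι : Type*} [Fintype ι] {Hl : ι → Type*} [∀ i, AddCommGroup (Hl i)] [∀ i, Module k (Hl i)]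
    (f : ∀ i, H →ₗ[k] Hl i) (τ : Module.Dual k H) (hτ : ∀ x, (∀ i, f i x = 0) → τ x = 0) :
    ∃ τl : ∀ i, Module.Dual k (Hl i), ∀ x, τ x = ∑ i, τl i (f i x) := by
  classical
  have hmem : τ ∈ (LinearMap.ker (LinearMap.pi f)).dualAnnihilator := by
    rw [Submodule.mem_dualAnnihilator]
    intro x hx
    exact hτ x fun i => congrFun (LinearMap.mem_ker.mp hx) i
  rw [← LinearMap.range_dualMap_eq_dualAnnihilator_ker] at hmem
  obtain ⟨τ', rfl⟩ := hmem
  refine ⟨fun i => τ' ∘ₗ LinearMap.single k Hl i, fun x => ?_⟩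
  simp only [LinearMap.dualMap_apply, LinearMap.comp_apply]
  rw [← map_sum]
  congr 1
  funext j
  simp [Finset.sum_apply]

theorem S55_main (hp2 : p ≠ 2) (hpS : pPrime p ∈ S) (lam : LocalFunctionals p S)
    (hbase : BaseStatement hpS lam) (hrec : ReciprocityStatement lam)
    (hloc : LocalDualityStatement lam)
    (M : Rep (ZMod p) GQ) [FiniteDimensional (ZMod p) M]
    (hM : ∃ U ∈ LS S, ∀ u ∈ U, M.ρ u = 1)
    (Θ : EHomOn ⊤ M.ρ (WQ p hpS) →ₗ[ZMod p] groupCohomology.H1 (M.dualTwist (cycloChar p)))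
    (hΘmem : ∀ φ, Θ φ ∈ sha₁ S (M.dualTwist (cycloChar p)))
    (hΘsurj : ∀ y ∈ sha₁ S (M.dualTwist (cycloChar p)), ∃ φ, Θ φ = y)
    (hΘker : ∀ φ, Θ φ = 0 ↔
      ∃ φJ : EHomOn ⊤ M.ρ (JQ p S), φ = EHomOn.postcomp M.ρ (piQ p hpS).2 φJ) :
    ∃ B : sha₁ S (M.dualTwist (cycloChar p)) →ₗ[ZMod p] sha₂ S M →ₗ[ZMod p] ZMod p,
      (∀ y, (∀ x, B y x = 0) → y = 0) ∧ (∀ x, (∀ y, B y x = 0) → x = 0) := by
  obtain ⟨tr, htr⟩ := exists_trace hpS lam hrec
  have hsm : IsSmoothRep (LS S) M.ρ := by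
    obtain ⟨U, hU, h⟩ := hM
    exact fun a => ⟨U, hU, fun u hu => by rw [h u hu]; rfl⟩
  have hsmA : IsSmoothRep Lall M.ρ := by
    obtain ⟨U, hU, h⟩ := hM
    exact fun a => ⟨U, LS_le_Lall S hU, fun u hu => by rw [h u hu]; rfl⟩
  have hα := alpha_bijective (LS S) (WQ p hpS) tr (G1 p) (isOpen_LS_G1 hpS) (G1_index p)
    (hbase tr htr) M.ρ hsm
  have he := h2sMap_bijective S hsm
  let e : continuousH2S S M ≃ₗ[ZMod p] H2 (LS S) ⊤ M.ρ := LinearEquiv.ofBijective (h2sMap S hsm) he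
  have he_apply : ∀ x, e x = h2sMap S hsm x := fun _ => rfl
  let α : EHomOn ⊤ M.ρ (WQ p hpS) →ₗ[ZMod p] Module.Dual (ZMod p) (continuousH2S S M) :=
    e.dualMap.toLinearMap ∘ₗ alpha (LS S) ⊤ (WQ p hpS) tr M.ρ
  have hα_apply : ∀ φ x, α φ x = alpha (LS S) ⊤ (WQ p hpS) tr M.ρ φ (h2sMap S hsm x) :=
    fun _ _ => rfl
  have hαbij : Function.Bijective α := e.dualMap.bijective.comp hα
  refine exists_nondegenerate_pairing (sha₂ S M) (sha₁ S (M.dualTwist (cycloChar p))) Θ hΘmem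
    hΘsurj α hαbij (fun φJ => EHomOn.postcomp M.ρ (piQ p hpS).2 φJ) hΘker ?_ ?_
  · intro φJ x hx
    rw [hα_apply, alpha_postcomp_piQ hpS lam tr htr]
    refine Finset.sum_eq_zero fun ℓ _ => ?_
    rw [(mem_sha₂_iff S hp2 hsm x).mp hx ℓ, map_zero]
  · intro τ hτ
    obtain ⟨τl, hτl⟩ := exists_dual_family (k := ZMod p)
      (Hl := fun ℓ : ↥S => H2 Lall (⊤ ⊓ Dl ℓ.1) M.ρ)
      (fun ℓ : ↥S => loc2 S ⊤ M.ρ (primeLocalPlace ℓ.1)) (τ ∘ₗ e.symm.toLinearMap) (by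
        intro z hz
        have : e.symm z ∈ sha₂ S M := by
          rw [mem_sha₂_iff S hp2 hsm]
          intro ℓ
          rw [← he_apply, LinearEquiv.apply_symm_apply]
          exact hz ℓ
        exact hτ _ this)
    choose ψ hψ using fun ℓ : ↥S => hloc ℓ M M.ρ hsmA (τl ℓ)
    obtain ⟨φJ, hφJ⟩ := exists_EHomOn_Jrep (L := LS S) (D := DS S) (c := cycRep p) hM
      (fun ℓ => ⟨(ψ ℓ).1, fun v hv a => (ψ ℓ).2 v ⟨trivial, hv⟩ a⟩)
    refine ⟨φJ, ?_⟩
    apply LinearMap.ext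
    intro x
    rw [hα_apply, alpha_postcomp_piQ hpS lam tr htr]
    have h1 : τ x = (τ ∘ₗ e.symm.toLinearMap) (e x) := by simp
    rw [h1, hτl]
    refine Finset.sum_congr rfl fun ℓ _ => ?_
    have h2 : evComp ℓ φJ = ψ ℓ := Subtype.ext (hφJ ℓ)
    rw [h2, hψ, he_apply]

end Fermat.Agent.PT

end
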