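/-
S55 (Poitou-Tate), block F2 (Θ): the concrete connecting map
`thetaQ : Hom_G(M, W) → H¹(GQ, M')`, `M' = M.dualTwist (cycloChar p)`; its image is `sha₁ S M'`, its kernel
is the image of `Hom_G(M, J)`.
-/
import Fermat.Agent.PT.Bridge.Sha1
import Fermat.Agent.PT.Bridge.H2S
import Fermat.Agent.PT.Duality.ThetaSurj
import Fermat.Agent.PT.Duality.Global

set_option autoImplicit false
set_option maxHeartbeats 400000

open CategoryTheory groupCohomology ExtCitation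

noncomputable section

namespace Fermat.Agent.PT

variable {p : ℕ} [Fact p.Prime] {S : Finset Nat.Primes} (hpS : pPrime p ∈ S)

/-- A fixed `F_p`-linear section of `π : J → W`. -/
def WsecQ : ((∀ ℓ : ↥S, X0 (LS S) (DS S ℓ) (cycRep p)) ⧸
      LinearMap.range (Jincl (LS S) (DS S) (cycRep p) (isSmoothRep_cycRep hpS))) →ₗ[ZMod p]
    (∀ ℓ : ↥S, X0 (LS S) (DS S ℓ) (cycRep p)) :=
  Classical.choose (LinearMap.exists_rightInverse_of_surjective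
    (Wpi (LS S) (DS S) (cycRep p) (isSmoothRep_cycRep hpS))
    (LinearMap.range_eq_top.2 (Wpi_surjective _ _ _ _)))

theorem Wpi_comp_WsecQ :
    Wpi (LS S) (DS S) (cycRep p) (isSmoothRep_cycRep hpS) ∘ₗ WsecQ hpS = LinearMap.id :=
  Classical.choose_spec (LinearMap.exists_rightInverse_of_surjective
    (Wpi (LS S) (DS S) (cycRep p) (isSmoothRep_cycRep hpS))
    (LinearMap.range_eq_top.2 (Wpi_surjective _ _ _ _)))

variable (M : Rep (ZMod p) GQ)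

/-- The lift `s ∘ φ : M → J` of `φ : M → W`. -/
def liftQ : EHomOn ⊤ M.ρ (WQ p hpS) →ₗ[ZMod p]
    (M →ₗ[ZMod p] (∀ ℓ : ↥S, X0 (LS S) (DS S ℓ) (cycRep p))) :=
  (LinearMap.llcomp (ZMod p) M _ _ (WsecQ hpS)) ∘ₗ (EHomOn ⊤ M.ρ (WQ p hpS)).subtype

theorem Wpi_comp_liftQ (φ : EHomOn ⊤ M.ρ (WQ p hpS)) :
    Wpi (LS S) (DS S) (cycRep p) (isSmoothRep_cycRep hpS) ∘ₗ liftQ hpS M φ = φ.1 := by
  show _ ∘ₗ (WsecQ hpS ∘ₗ φ.1) = φ.1
  rw [← LinearMap.comp_assoc, Wpi_comp_WsecQ, LinearMap.id_comp]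

theorem Wpi_comp_liftQ_mem (φ : EHomOn ⊤ M.ρ (WQ p hpS)) :
    Wpi (LS S) (DS S) (cycRep p) (isSmoothRep_cycRep hpS) ∘ₗ liftQ hpS M φ ∈
      EHomOn ⊤ M.ρ (Wrep (LS S) (DS S) (cycRep p) (isSmoothRep_cycRep hpS)) := by
  rw [Wpi_comp_liftQ]; exact φ.2

/-- The cochain of `φ`, with values in `M' = M.dualTwist (cycloChar p)`. -/
def thetaQFun : EHomOn ⊤ M.ρ (WQ p hpS) →ₗ[ZMod p] (GQ → M.dualTwist (cycloChar p)) :=
  thetaCoc (LS S) (DS S) (cycRep p) M.ρ ⟨pPrime p, hpS⟩ ∘ₗ liftQ hpS M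

theorem thetaQFun_mem (φ : EHomOn ⊤ M.ρ (WQ p hpS)) :
    thetaQFun hpS M φ ∈ cocycles₁ (M.dualTwist (cycloChar p)) := by
  have key := thetaCoc_cocycle (L := LS S) (D := DS S) (c := cycRep p) (ρ := M.ρ)
    (χ := cycloChar p) (isSmoothRep_cycRep hpS) (cycRep_apply p) ⟨pPrime p, hpS⟩
        (Wpi_comp_liftQ_mem hpS M φ)
  rw [mem_cocycles₁_iff]
  intro g h
  exact key g h

/-- The cocycle of `φ`. -/
def thetaQCoc : EHomOn ⊤ M.ρ (WQ p hpS) →ₗ[ZMod p] cocycles₁ (M.dualTwist (cycloChar p)) :=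
  LinearMap.codRestrict (cocycles₁ (M.dualTwist (cycloChar p))) (thetaQFun hpS M)
    (thetaQFun_mem hpS M)

/-- (Θ) the connecting map. -/
def thetaQ : EHomOn ⊤ M.ρ (WQ p hpS) →ₗ[ZMod p] groupCohomology.H1 (M.dualTwist (cycloChar p)) :=
  (H1π (M.dualTwist (cycloChar p))).hom ∘ₗ thetaQCoc hpS M

theorem thetaQ_apply (φ : EHomOn ⊤ M.ρ (WQ p hpS)) :
    thetaQ hpS M φ = (H1π (M.dualTwist (cycloChar p))).hom (thetaQCoc hpS M φ) := rfl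

theorem isSmoothRep_of_level {M : Rep (ZMod p) GQ} (hM : ∃ U ∈ LS S, ∀ u ∈ U, M.ρ u = 1) :
    IsSmoothRep (LS S) M.ρ := by
  obtain ⟨U, hU, h⟩ := hM
  exact fun m => ⟨U, hU, fun u hu => by rw [h u hu]; rfl⟩

theorem thetaQ_mem_sha₁ (hp2 : p ≠ 2) [FiniteDimensional (ZMod p) M]
    (hM : ∃ U ∈ LS S, ∀ u ∈ U, M.ρ u = 1) (φ : EHomOn ⊤ M.ρ (WQ p hpS)) :
    thetaQ hpS M φ ∈ sha₁ S (M.dualTwist (cycloChar p)) := by
  rw [mem_sha₁_iff hp2]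
  refine ⟨thetaQCoc hpS M φ, ?_, ?_, rfl⟩
  · rw [isLevelConstantS₁_iff]
    exact thetaCoc_smooth (L := LS S) (D := DS S) (c := cycRep p) (ρ := M.ρ)
      (isSmoothRep_of_level hM) ⟨pPrime p, hpS⟩ (liftQ hpS M φ)
  · intro ℓ
    have key := thetaCoc_local (L := LS S) (D := DS S) (c := cycRep p) (ρ := M.ρ)
      (χ := cycloChar p) (isSmoothRep_cycRep hpS) (cycRep_apply p) ⟨pPrime p, hpS⟩ ℓ
      (Wpi_comp_liftQ_mem hpS M φ)
    exact ⟨Jev (LS S) (DS S) (cycRep p) ℓ ∘ₗ liftQ hpS M φ, fun d hd => key d hd⟩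

/-- Two lifts of the same map have cohomologous cocycles. -/
theorem thetaCoc_sub_mem_coboundaries₁
    (φ₁ φ₂ : M →ₗ[ZMod p] (∀ ℓ : ↥S, X0 (LS S) (DS S ℓ) (cycRep p)))
    (h : Wpi (LS S) (DS S) (cycRep p) (isSmoothRep_cycRep hpS) ∘ₗ φ₁ =
      Wpi (LS S) (DS S) (cycRep p) (isSmoothRep_cycRep hpS) ∘ₗ φ₂) :
    ((thetaCoc (LS S) (DS S) (cycRep p) M.ρ ⟨pPrime p, hpS⟩ φ₁ -
      thetaCoc (LS S) (DS S) (cycRep p) M.ρ ⟨pPrime p, hpS⟩ φ₂ :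
        GQ → Module.Dual (ZMod p) M) : GQ → M.dualTwist (cycloChar p)) ∈
      coboundaries₁ (M.dualTwist (cycloChar p)) := by
  have h0 : Wpi (LS S) (DS S) (cycRep p) (isSmoothRep_cycRep hpS) ∘ₗ (φ₁ - φ₂) = 0 := by
    rw [LinearMap.comp_sub, h, sub_self]
  have key := thetaCoc_of_Wpi_comp_eq_zero (L := LS S) (D := DS S) (c := cycRep p) (ρ := M.ρ)
      (χ := cycloChar p) (isSmoothRep_cycRep hpS) (cycRep_apply p) ⟨pPrime p, hpS⟩ h0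
  rw [← map_sub]
  refine ⟨Jev (LS S) (DS S) (cycRep p) ⟨pPrime p, hpS⟩ ∘ₗ (φ₁ - φ₂), ?_⟩
  funext g
  rw [d₀₁_hom_apply]
  exact (key g).symm

theorem thetaQ_surjOn (hp2 : p ≠ 2) (hM : ∃ U ∈ LS S, ∀ u ∈ U, M.ρ u = 1)
    (y : groupCohomology.H1 (M.dualTwist (cycloChar p)))
    (hy : y ∈ sha₁ S (M.dualTwist (cycloChar p))) :
    ∃ φ : EHomOn ⊤ M.ρ (WQ p hpS), thetaQ hpS M φ = y := by
  rw [mem_sha₁_iff hp2] at hy
  obtain ⟨a, hlc, hloc, rfl⟩ := hy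
  choose b hb using hloc
  rw [isLevelConstantS₁_iff] at hlc
  obtain ⟨φt, hφt, hθ⟩ := exists_thetaCoc_eq (L := LS S) (D := DS S) (c := cycRep p) (ρ := M.ρ)
      (χ := cycloChar p) (isSmoothRep_cycRep hpS) (cycRep_apply p) hM ⟨pPrime p, hpS⟩
      (a : GQ → M.dualTwist (cycloChar p)) hlc
      (fun g h => (mem_cocycles₁_iff (A := M.dualTwist (cycloChar p)) _).1 a.2 g h) b hb
  refine ⟨⟨_, hφt⟩, ?_⟩
  rw [thetaQ_apply, H1π_eq_iff]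
  have := thetaCoc_sub_mem_coboundaries₁ hpS M (liftQ hpS M ⟨_, hφt⟩) φt
    (Wpi_comp_liftQ hpS M ⟨_, hφt⟩)
  rw [hθ] at this
  exact this

theorem thetaQ_eq_zero_iff (φ : EHomOn ⊤ M.ρ (WQ p hpS)) :
    thetaQ hpS M φ = 0 ↔
      ∃ φJ : EHomOn ⊤ M.ρ (JQ p S), φ = EHomOn.postcomp M.ρ (piQ p hpS).2 φJ := by
  rw [thetaQ_apply, H1π_eq_zero_iff]
  constructor
  · rintro ⟨e, he⟩
    have key := sub_Jincl_mem_EHomOn (L := LS S) (D := DS S) (c := cycRep p) (ρ := M.ρ)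
      (χ := cycloChar p) (isSmoothRep_cycRep hpS) (cycRep_apply p) ⟨pPrime p, hpS⟩
      (Wpi_comp_liftQ_mem hpS M φ) e (fun g => by
        have := congrFun he g
        rw [d₀₁_hom_apply] at this
        exact this.symm)
    refine ⟨⟨_, key⟩, ?_⟩
    apply Subtype.ext
    show φ.1 = Wpi (LS S) (DS S) (cycRep p) (isSmoothRep_cycRep hpS) ∘ₗ
      (liftQ hpS M φ - Jincl (LS S) (DS S) (cycRep p) (isSmoothRep_cycRep hpS) ∘ₗ e)
    rw [LinearMap.comp_sub, Wpi_comp_liftQ]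
    have h0 : Wpi (LS S) (DS S) (cycRep p) (isSmoothRep_cycRep hpS) ∘ₗ
        (Jincl (LS S) (DS S) (cycRep p) (isSmoothRep_cycRep hpS) ∘ₗ e) = 0 := by
      ext m
      have : Jincl (LS S) (DS S) (cycRep p) (isSmoothRep_cycRep hpS) (e m) ∈
          LinearMap.ker (Wpi (LS S) (DS S) (cycRep p) (isSmoothRep_cycRep hpS)) := by
        rw [ker_Wpi]; exact ⟨_, rfl⟩
      exact this
    rw [h0, sub_zero]
  · rintro ⟨φJ, rfl⟩
    have := thetaCoc_sub_mem_coboundaries₁ hpS M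
      (liftQ hpS M (EHomOn.postcomp M.ρ (piQ p hpS).2 φJ)) φJ.1
      (Wpi_comp_liftQ hpS M (EHomOn.postcomp M.ρ (piQ p hpS).2 φJ))
    rw [thetaCoc_of_mem_EHomOn (L := LS S) (D := DS S) (c := cycRep p) (ρ := M.ρ)
      ⟨pPrime p, hpS⟩ φJ.2, sub_zero] at this
    exact this

end Fermat.Agent.PT

end
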