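/-
S55 (Poitou-Tate), block F2: the statement of S55 from the three contracts
`BaseStatement`, `ReciprocityStatement`, `LocalDualityStatement` of `Duality/Global.lean`.
-/
import Fermat.Agent.PT.Final.Main
import Fermat.Agent.PT.Final.ThetaQ

set_option autoImplicit false
set_option maxHeartbeats 400000

open CategoryTheory Module groupCohomology ExtCitation

namespace Fermat.Agent.PT

/-- The three contracts consumed by the final assembly, for one `(p, S)`. -/
def S55Contracts (p : ℕ) [Fact p.Prime] (S : Finset Nat.Primes) (hpS : pPrime p ∈ S) : Prop :=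
  ∃ lam : LocalFunctionals p S,
    BaseStatement hpS lam ∧ ReciprocityStatement lam ∧ LocalDualityStatement lam

theorem S55_of_contracts {p : ℕ} [Fact p.Prime] (hp2 : p ≠ 2) (S : Finset Nat.Primes)
    (hpS : pPrime p ∈ S) (hC : S55Contracts p S hpS)
    (M : Rep (ZMod p) (AlgebraicClosure ℚ ≃ₐ[ℚ] AlgebraicClosure ℚ))
    [FiniteDimensional (ZMod p) M]
    (hsm : ∀ m : M, ∃ F : IntermediateField ℚ (AlgebraicClosure ℚ), FiniteDimensional ℚ F ∧
      ∀ s ∈ F.fixingSubgroup, M.ρ s m = m)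
    (hMur : ∀ q : Nat.Primes, q ∉ S → ∀ A : ValuationSubring (AlgebraicClosure ℚ),
      A.LiesOverPrime (q : ℕ) → ∀ g ∈ A.inertiaSubgroupIn ℚ, M.ρ g = 1) :
    ∃ B : sha₁ S (M.dualTwist (cycloChar p)) →ₗ[ZMod p] sha₂ S M →ₗ[ZMod p] ZMod p,
      (∀ y, (∀ x, B y x = 0) → y = 0) ∧ (∀ x, (∀ y, B y x = 0) → x = 0) := by
  obtain ⟨lam, hbase, hrec, hloc⟩ := hC
  have hM := exists_mem_LS_of_smooth S M hsm hMur
  exact S55_main hp2 hpS lam hbase hrec hloc M hM (thetaQ hpS M)
    (thetaQ_mem_sha₁ hpS M hp2 hM) (thetaQ_surjOn hpS M hp2 hM) (thetaQ_eq_zero_iff hpS M)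

end Fermat.Agent.PT
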