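/-
S55 (Poitou-Tate): top-level wiring of the blocks.
-/
import Fermat.Agent.PT.Final.Contracts
import Fermat.Agent.PT.Base.Main
import Fermat.Agent.PT.Local.LocalCard
import Fermat.Agent.PT.Local.LocalNr
import Fermat.Agent.PT.Local.LocalCoresOnto
import Fermat.Agent.PT.HP.Main
import Fermat.Agent.PT.R.Main
import Fermat.Agent.PT.Koch.Main
import Fermat.Agent.PT.FA.Main
import Fermat.Agent.PT.Global.CycLayer
import Fermat.Agent.PT.LocDual.Final

set_option autoImplicit false
set_option maxHeartbeats 400000

open ExtCitation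

namespace Fermat.Agent.PT

theorem S55Contracts_all {p : ℕ} [Fact p.Prime] (hp2 : p ≠ 2) (S : Finset Nat.Primes)
    (hpS : pPrime p ∈ S) : S55Contracts p S hpS := by
  have hLC := Local.localCard p
  have hNr := Local.localNr p
  have hCo := Local.localCoresOnto p
  have hHP := hpStatement hp2
  have hR := rPrimeStatement hp2 hHP hLC
  have hFC := Koch.FC hp2 (kummerQbar p) hLC hNr hHP
  have hFA := FA.faCofinal hp2 hLC
  obtain ⟨lam, h1, h2, h3⟩ := Base.base_main p hR hFA hFC hLC hNr hCo S hpS
  exact ⟨lam, h3, h2, LocDual.localDualityQ lam h1⟩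

end Fermat.Agent.PT
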