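/-
S55 (Poitou-Tate): wiring of all the contracts.  `S55Contracts p S hpS` from the two contracts which are
proved last (block FA and local duality).
-/
import Fermat.Agent.PT.Final.Contracts
import Fermat.Agent.PT.Base.Main
import Fermat.Agent.PT.Koch.Main
import Fermat.Agent.PT.R.Main
import Fermat.Agent.PT.HP.Main
import Fermat.Agent.PT.Local.LocalCard
import Fermat.Agent.PT.Local.LocalNr
import Fermat.Agent.PT.Local.LocalCoresOnto
import Fermat.Agent.PT.B.Galois

set_option autoImplicit false

open ExtCitation

namespace Fermat.Agent.PT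

/-- All the contracts of S55, from (FA) and local duality. -/
theorem s55Contracts_of {p : ℕ} [Fact p.Prime] (hp2 : p ≠ 2) (hFA : FACofinalStatement p)
    (hLD : ∀ (S : Finset Nat.Primes) (lam : LocalFunctionals p S), (∀ ℓ, lam ℓ ≠ 0) →
      LocalDualityStatement lam)
    (S : Finset Nat.Primes) (hpS : pPrime p ∈ S) : S55Contracts p S hpS := by
  have hLC : LocalCardStatement p := Local.localCard p
  have hNr : LocalNrStatement p := Local.localNr p
  have hHP : HPStatement p := hpStatement hp2
  have hR : RPrimeStatement p := rPrimeStatement hp2 hHP hLC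
  have hFC : FCStatement p := Koch.FC hp2 (kummerQbar p) hLC hNr hHP
  have hCo : Base.LocalCoresOntoStatement p := Local.localCoresOnto p
  obtain ⟨lam, hne, hrec, hbase⟩ := Base.base_main p hR hFA hFC hLC hNr hCo S hpS
  exact ⟨lam, hbase, hrec, hLD S lam hne⟩

end Fermat.Agent.PT
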